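/-
Cluster J (S59), J8, leaf (NC1-W), sub-piece PS: the power series ring `k⟦X₁..Xₙ⟧` over a field
as a regular local ring, and the presentation of an Artinian local `k`-algebra with residue
field `k`.   Seat: helper67.   Architect of NC1-W: helper31
(blueprint: NOTES/blueprint-J-S59-Wiebe.md).

* `mvPowerSeries_isRegular_X` (PS1): the variables form a regular sequence;
* `mvPowerSeries_span_X_eq_maximalIdeal` (PS2): the variables generate the maximal ideal;
* `exists_surjective_algHom_mvPowerSeries` (PS3): `k⟦X⟧ ↠ A`, `X i ↦ x i`.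
-/
import Mathlib
import Fermat.Agent.S57.PowerSeriesRegular
import Fermat.Agent.S53.PowerSeries

set_option autoImplicit false

namespace Fermat.Agent.S59.NumCrit

open IsLocalRing

/-- (PS2) the variables generate the maximal ideal. -/
theorem mvPowerSeries_span_X_eq_maximalIdeal (k : Type) [Field k] (n : ℕ) :
    Ideal.span (Set.range fun i : Fin n => (MvPowerSeries.X i : MvPowerSeries (Fin n) k)) =
      maximalIdeal (MvPowerSeries (Fin n) k) := by
  have hset : (Set.range fun i : Fin n => (MvPowerSeries.X i : MvPowerSeries (Fin n) k)) =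
      {x : MvPowerSeries (Fin n) k | ∃ j : Fin n, j.val < n ∧ x = MvPowerSeries.X j} := by
    ext x
    constructor
    · rintro ⟨j, rfl⟩
      exact ⟨j, j.isLt, rfl⟩
    · rintro ⟨j, _, rfl⟩
      exact ⟨j, rfl⟩
  rw [hset, Fermat.Agent.S57.span_X_lt_eq_lowIdeal n le_rfl]
  ext f
  rw [Fermat.Agent.S57.mem_lowIdeal, mem_maximalIdeal, mem_nonunits_iff,
    MvPowerSeries.isUnit_iff_constantCoeff, isUnit_iff_ne_zero, not_not]
  constructor
  · intro h
    have := h 0 (fun j _ => rfl)
    simpa using this
  · intro h m hm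
    have hm0 : m = 0 := by
      ext j
      exact hm j j.isLt
    subst hm0
    simpa using h

/-- (PS1) the variables form a regular sequence. -/
theorem mvPowerSeries_isRegular_X (k : Type) [Field k] (n : ℕ) :
    RingTheory.Sequence.IsRegular (MvPowerSeries (Fin n) k)
      (List.ofFn fun i : Fin n => (MvPowerSeries.X i : MvPowerSeries (Fin n) k)) := by
  have hw := Fermat.Agent.S57.isWeaklyRegular_stdSeq (A := k) n 1 one_ne_zero
  refine ⟨?_, ?_⟩
  · rw [RingTheory.Sequence.isWeaklyRegular_iff] at hw ⊢
    intro i hi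
    have hin : i < n := by simpa using hi
    have hi' : i < (Fermat.Agent.S57.stdSeq (A := k) n 1).length := by
      rw [Fermat.Agent.S57.stdSeq_length]; omega
    have h1 := hw i hi'
    have h2 : (Fermat.Agent.S57.stdSeq (A := k) n 1)[i] =
        (List.ofFn fun i : Fin n => (MvPowerSeries.X i : MvPowerSeries (Fin n) k))[i] := by
      rw [Fermat.Agent.S57.stdSeq_getElem_lt n 1 i hin]
      simp
    have h3 : (Fermat.Agent.S57.stdSeq (A := k) n 1).take i =
        (List.ofFn fun i : Fin n => (MvPowerSeries.X i : MvPowerSeries (Fin n) k)).take i := by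
      unfold Fermat.Agent.S57.stdSeq
      rw [List.take_append_of_le_length (by simpa using hin.le)]
    rw [h2, h3] at h1
    exact h1
  · rw [smul_eq_mul, Ideal.mul_top]
    have h : Ideal.ofList
        (List.ofFn fun i : Fin n => (MvPowerSeries.X i : MvPowerSeries (Fin n) k)) =
        maximalIdeal (MvPowerSeries (Fin n) k) := by
      rw [← mvPowerSeries_span_X_eq_maximalIdeal]
      unfold Ideal.ofList
      congr 1
      ext x
      simp [List.mem_ofFn]
    rw [h]
    exact (Ideal.IsMaximal.ne_top (maximalIdeal.isMaximal _)).symm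

/-- (PS3) presentation of an Artinian local `k`-algebra with residue field `k`. -/
theorem exists_surjective_algHom_mvPowerSeries {k A : Type} [Field k] [CommRing A] [IsLocalRing A]
    [IsArtinianRing A] [Algebra k A]
    (hk : ∀ a : A, ∃ c : k, a - algebraMap k A c ∈ maximalIdeal A)
    {n : ℕ} (x : Fin n → A) (hx : Ideal.span (Set.range x) = maximalIdeal A) :
    ∃ θ : MvPowerSeries (Fin n) k →ₐ[k] A,
      Function.Surjective θ ∧ ∀ i, θ (MvPowerSeries.X i) = x i := by
  -- the maximal ideal is nilpotent
  have hnil : IsNilpotent (maximalIdeal A) := by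
    have := IsArtinianRing.isNilpotent_jacobson_bot (R := A)
    rwa [IsLocalRing.jacobson_eq_maximalIdeal ⊥ bot_ne_top] at this
  obtain ⟨N, hN⟩ := hnil
  have hxm : ∀ i, x i ∈ maximalIdeal A := fun i => by
    rw [← hx]; exact Ideal.subset_span ⟨i, rfl⟩
  have hxnil : ∀ i, IsNilpotent (x i) := fun i => by
    refine ⟨N, ?_⟩
    have : x i ^ N ∈ maximalIdeal A ^ N := Ideal.pow_mem_pow (hxm i) N
    rw [hN] at this
    simpa using this
  obtain ⟨θ, hθ⟩ := Fermat.Agent.S53.exists_algHom_mvPowerSeries (𝒪 := k) x hxnil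
  refine ⟨θ, ?_, hθ⟩
  -- approximation modulo `𝔪 ^ t`
  have h1 : ∀ a : A, ∃ s : MvPowerSeries (Fin n) k, a - θ s ∈ maximalIdeal A := by
    intro a
    obtain ⟨c, hc⟩ := hk a
    refine ⟨algebraMap k _ c, ?_⟩
    rwa [AlgHom.commutes]
  have key : ∀ t : ℕ, ∀ a : A, ∃ s : MvPowerSeries (Fin n) k, a - θ s ∈ maximalIdeal A ^ t := by
    intro t
    induction t with
    | zero =>
      intro a
      exact ⟨0, by simp⟩
    | succ t ih =>
      intro a
      obtain ⟨s, hs⟩ := h1 a
      rw [← hx] at hs
      obtain ⟨c, hc⟩ := (Ideal.mem_span_range_iff_exists_fun).mp hs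
      choose σ hσ using fun i => ih (c i)
      refine ⟨s + ∑ i, σ i * MvPowerSeries.X i, ?_⟩
      have : a - θ (s + ∑ i, σ i * MvPowerSeries.X i) = ∑ i, (c i - θ (σ i)) * x i := by
        rw [map_add, map_sum]
        have h2 : ∀ i, θ (σ i * MvPowerSeries.X i) = θ (σ i) * x i := fun i => by
          rw [map_mul, hθ]
        simp only [h2, sub_mul, Finset.sum_sub_distrib, hc]
        ring
      rw [this]
      refine Ideal.sum_mem _ (fun i _ => ?_)
      rw [pow_succ]
      exact Ideal.mul_mem_mul (hσ i) (hxm i)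
  intro a
  obtain ⟨s, hs⟩ := key N a
  rw [hN] at hs
  refine ⟨s, ?_⟩
  have : a - θ s = 0 := by simpa using hs
  exact (sub_eq_zero.mp this).symm

end Fermat.Agent.S59.NumCrit
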