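/-
Cluster J (S59), J8, leaf (NC1-W), sub-piece CORE: complete-intersection covers with simple socle.
Owner: helper31.   Blueprint: NOTES/blueprint-J-S59-Wiebe.md.   Sorry-free.

`S` a Noetherian local ring whose maximal ideal is generated by a regular sequence `X₁..Xₙ`,
`f₁..fₙ ∈ 𝔪`.  Then for suitable exponents `aᵢ ≥ N` the perturbed sequence `hᵢ = fᵢ + Xᵢ ^ aᵢ` is
regular, `S/(h)` is Artinian, and the socle of `S/(h)` has length `≤ 1` (`exists_perturb`).
Proof: replace `Xⱼ` by `hⱼ` one index at a time.  At step `j` the common part is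
`Z = (h₁..h_{j-1}, X_{j+1}..Xₙ)`; `Xⱼ` is regular mod `Z` (permutability of regular sequences);
all but finitely many `a` make `fⱼ + Xⱼ ^ a` regular mod `Z` (`exists_regMod_add_pow`); the socles of
`S/(Z, x)` and `S/(Z, y)` are isomorphic for `x, y` regular mod `Z` (`socleLE_exchange`).
Artinian: dimension formula for regular sequences.
-/
import Mathlib

set_option autoImplicit false
set_option linter.unusedSectionVars false
set_option linter.style.haveILetI false

namespace Fermat.Agent.S59.NumCrit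

open IsLocalRing RingTheory.Sequence

/-- The socle of `S ⧸ H` has length at most one: any two socle elements are proportional. -/
def SocleLE {S : Type} [CommRing S] [IsLocalRing S] (H : Ideal S) : Prop :=
  ∀ u v : S, (∀ m ∈ maximalIdeal S, m * u ∈ H) → (∀ m ∈ maximalIdeal S, m * v ∈ H) → v ∉ H →
    u ∈ H ⊔ Ideal.span {v}

section

variable {S : Type} [CommRing S]

/-- `x` is regular modulo the ideal `Z`. -/
def RegMod (Z : Ideal S) (x : S) : Prop := ∀ s : S, x * s ∈ Z → s ∈ Z

theorem regMod_iff_isSMulRegular (Z : Ideal S) (x : S) :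
    RegMod Z x ↔ IsSMulRegular (S ⧸ (Z • ⊤ : Submodule S S)) x := by
  rw [isSMulRegular_quotient_iff_mem_of_smul_mem]
  have h : (Z • ⊤ : Submodule S S) = Z := by
    rw [smul_eq_mul, Ideal.mul_top]
  rw [h]
  rfl

theorem regMod_iff_isSMulRegular' (Z : Ideal S) (x : S) :
    RegMod Z x ↔ IsSMulRegular (S ⧸ Z) x := by
  rw [isSMulRegular_quotient_iff_mem_of_smul_mem]
  rfl

theorem RegMod.pow {Z : Ideal S} {x : S} (h : RegMod Z x) (a : ℕ) : RegMod Z (x ^ a) := by
  induction a with
  | zero => intro s hs; simpa using hs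
  | succ a ih =>
    intro s hs
    apply ih
    apply h
    have : x * (x ^ a * s) = x ^ (a + 1) * s := by ring
    rw [this]
    exact hs

theorem mem_sup_span_singleton {Z : Ideal S} {x s : S} :
    s ∈ Z ⊔ Ideal.span {x} ↔ ∃ z ∈ Z, ∃ t : S, s = z + t * x := by
  rw [Submodule.mem_sup]
  constructor
  · rintro ⟨z, hz, w, hw, rfl⟩
    obtain ⟨t, rfl⟩ := Ideal.mem_span_singleton'.mp hw
    exact ⟨z, hz, t, rfl⟩
  · rintro ⟨z, hz, t, rfl⟩
    exact ⟨z, hz, t * x, Ideal.mem_span_singleton'.mpr ⟨t, rfl⟩, rfl⟩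

end

section Exchange

variable {S : Type} [CommRing S] [IsLocalRing S]

/-- (W1) exchange lemma for socles. -/
theorem socleLE_exchange (Z : Ideal S) {x y : S} (hx : x ∈ maximalIdeal S)
    (hxr : RegMod Z x) (hyr : RegMod Z y)
    (h : SocleLE (Z ⊔ Ideal.span {x})) : SocleLE (Z ⊔ Ideal.span {y}) := by
  intro u v hu hv hvn
  -- transfer of a socle element
  have key : ∀ w : S, (∀ m ∈ maximalIdeal S, m * w ∈ Z ⊔ Ideal.span {y}) →
      ∃ w' : S, x * w - w' * y ∈ Z ∧ ∀ m ∈ maximalIdeal S, m * w' ∈ Z ⊔ Ideal.span {x} := by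
    intro w hw
    obtain ⟨z, hz, w', hw'⟩ := mem_sup_span_singleton.mp (hw x hx)
    refine ⟨w', ?_, ?_⟩
    · have : x * w - w' * y = z := by rw [hw']; ring
      rw [this]; exact hz
    · intro m hm
      obtain ⟨z', hz', t, ht⟩ := mem_sup_span_singleton.mp (hw m hm)
      have h1 : y * (m * w' - x * t) ∈ Z := by
        have : y * (m * w' - x * t) = x * z' - m * z := by
          have e1 : w' * y = x * w - z := by rw [hw']; ring
          have e2 : t * y = m * w - z' := by rw [ht]; ring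
          calc y * (m * w' - x * t) = m * (w' * y) - x * (t * y) := by ring
            _ = m * (x * w - z) - x * (m * w - z') := by rw [e1, e2]
            _ = x * z' - m * z := by ring
        rw [this]
        exact Ideal.sub_mem _ (Ideal.mul_mem_left _ _ hz') (Ideal.mul_mem_left _ _ hz)
      have h2 := hyr _ h1
      rw [mem_sup_span_singleton]
      exact ⟨m * w' - x * t, h2, t, by ring⟩
  obtain ⟨u', hu1, hu2⟩ := key u hu
  obtain ⟨v', hv1, hv2⟩ := key v hv
  have hv3 : v' ∉ Z ⊔ Ideal.span {x} := by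
    intro hmem
    obtain ⟨z, hz, t, ht⟩ := mem_sup_span_singleton.mp hmem
    apply hvn
    have h1 : x * (v - t * y) ∈ Z := by
      have : x * (v - t * y) = (x * v - v' * y) + z * y := by rw [ht]; ring
      rw [this]
      exact Ideal.add_mem _ hv1 (Ideal.mul_mem_right _ _ hz)
    have h2 := hxr _ h1
    rw [mem_sup_span_singleton]
    exact ⟨v - t * y, h2, t, by ring⟩
  have h3 := h u' v' hu2 hv2 hv3
  rw [mem_sup_span_singleton] at h3
  obtain ⟨w, hw, c, hc⟩ := h3
  obtain ⟨z, hz, t, ht⟩ := mem_sup_span_singleton.mp hw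
  have h4 : x * (u - t * y - c * v) ∈ Z := by
    have : x * (u - t * y - c * v) = (x * u - u' * y) - c * (x * v - v' * y) + z * y := by
      rw [hc, ht]; ring
    rw [this]
    exact Ideal.add_mem _ (Ideal.sub_mem _ hu1 (Ideal.mul_mem_left _ _ hv1))
      (Ideal.mul_mem_right _ _ hz)
  have h5 := hxr _ h4
  rw [mem_sup_span_singleton]
  refine ⟨(u - t * y - c * v) + t * y, ?_, c, by ring⟩
  rw [mem_sup_span_singleton]
  exact ⟨_, h5, t, rfl⟩

end Exchange


section Select

variable {S : Type} [CommRing S]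

/-- (W2) selection of a regular perturbation. -/
theorem exists_regMod_add_pow [IsLocalRing S] [IsNoetherianRing S] (Z : Ideal S) {X : S}
    (hX : X ∈ maximalIdeal S) (hXr : RegMod Z X) (f : S) (N : ℕ) :
    ∃ a, N ≤ a ∧ RegMod Z (f + X ^ a) := by
  classical
  by_contra hcon
  push Not at hcon
  have hfin : (associatedPrimes S (S ⧸ Z)).Finite := associatedPrimes.finite S (S ⧸ Z)
  have hU := biUnion_associatedPrimes_eq_compl_regular S (S ⧸ Z)
  have hmem : ∀ i : ℕ, ∃ p ∈ associatedPrimes S (S ⧸ Z), f + X ^ (N + 1 + i) ∈ p := by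
    intro i
    have h1 : ¬ IsSMulRegular (S ⧸ Z) (f + X ^ (N + 1 + i)) := by
      rw [← regMod_iff_isSMulRegular']
      exact hcon _ (by omega)
    have h2 : f + X ^ (N + 1 + i) ∈ ({r : S | IsSMulRegular (S ⧸ Z) r}ᶜ : Set S) := h1
    rw [← hU] at h2
    simpa using h2
  choose g hg1 hg2 using hmem
  haveI : Finite (associatedPrimes S (S ⧸ Z)) := hfin
  let g' : ℕ → associatedPrimes S (S ⧸ Z) := fun i => ⟨g i, hg1 i⟩
  obtain ⟨i, j, hij, hgij⟩ := Finite.exists_ne_map_eq_of_infinite g'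
  have hgij' : g i = g j := congrArg Subtype.val hgij
  -- wlog i < j
  have main : ∀ i j : ℕ, i < j → g i = g j → False := by
    intro i j hlt hgg
    have hp : (g i).IsPrime := (hg1 i).isPrime
    have h1 : f + X ^ (N + 1 + i) ∈ g i := hg2 i
    have h2 : f + X ^ (N + 1 + j) ∈ g i := hgg ▸ hg2 j
    have h3 : X ^ (N + 1 + i) * (1 - X ^ (j - i)) ∈ g i := by
      have : X ^ (N + 1 + i) * (1 - X ^ (j - i)) =
          (f + X ^ (N + 1 + i)) - (f + X ^ (N + 1 + j)) := by
        have e : N + 1 + j = (N + 1 + i) + (j - i) := by omega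
        rw [e, pow_add]; ring
      rw [this]
      exact Ideal.sub_mem _ h1 h2
    have hunit : IsUnit (1 - X ^ (j - i)) := by
      have hm : X ^ (j - i) ∈ maximalIdeal S :=
        Ideal.pow_mem_of_mem _ hX _ (by omega)
      by_contra hnu
      have h4 : (1 - X ^ (j - i)) ∈ maximalIdeal S := (IsLocalRing.mem_maximalIdeal _).mpr hnu
      have h5 : (1 : S) ∈ maximalIdeal S := by
        have : (1 : S) = (1 - X ^ (j - i)) + X ^ (j - i) := by ring
        rw [this]
        exact Ideal.add_mem _ h4 hm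
      exact (Ideal.ne_top_iff_one _).mp (IsLocalRing.maximalIdeal.isMaximal S).ne_top h5
    have h4 : X ^ (N + 1 + i) ∈ g i := by
      rcases hp.mem_or_mem h3 with h | h
      · exact h
      · exact absurd (Ideal.eq_top_of_isUnit_mem _ h hunit) hp.ne_top
    have h5 : X ∈ g i := hp.mem_of_pow_mem _ h4
    have h6 : X ∈ ⋃ p ∈ associatedPrimes S (S ⧸ Z), (p : Set S) := by
      simp only [Set.mem_iUnion]
      exact ⟨g i, hg1 i, h5⟩
    rw [hU] at h6
    exact h6 ((regMod_iff_isSMulRegular' Z X).mp hXr)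
  rcases lt_or_gt_of_ne hij with h | h
  · exact main i j h hgij'
  · exact main j i h hgij'.symm


theorem ofList_append_cons (l₁ l₂ : List S) (x : S) :
    Ideal.ofList (l₁ ++ x :: l₂) = Ideal.ofList (l₁ ++ l₂) ⊔ Ideal.span {x} := by
  unfold Ideal.ofList
  rw [← Ideal.span_union]
  congr 1
  ext r
  simp only [List.mem_append, List.mem_cons, Set.mem_ofPred_eq, Set.mem_union,
    Set.mem_singleton_iff]
  tauto

theorem perm_append_cons (l₁ l₂ : List S) (x : S) :
    (l₁ ++ x :: l₂).Perm ((l₁ ++ l₂) ++ [x]) := by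
  have h1 : (l₁ ++ x :: l₂).Perm (x :: (l₁ ++ l₂)) := List.perm_middle
  exact h1.trans (List.perm_append_singleton x (l₁ ++ l₂)).symm

theorem mem_maximalIdeal_of_isRegular [IsLocalRing S] {rs : List S} (h : IsRegular S rs)
    {r : S} (hr : r ∈ rs) : r ∈ maximalIdeal S := by
  have h4 := h.top_ne_smul
  have hne : Ideal.ofList rs ≠ ⊤ := by
    intro htop
    apply h4
    rw [htop]
    simp
  exact IsLocalRing.le_maximalIdeal hne (Ideal.subset_span hr)

/-- replacing one element of a regular sequence -/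
theorem isRegular_replace [IsLocalRing S] [IsNoetherianRing S] (l₁ l₂ : List S) {x : S}
    (h : IsRegular S (l₁ ++ x :: l₂)) :
    RegMod (Ideal.ofList (l₁ ++ l₂)) x ∧
      ∀ y : S, y ∈ maximalIdeal S → RegMod (Ideal.ofList (l₁ ++ l₂)) y →
        IsRegular S ((l₁ ++ [y]) ++ l₂) := by
  have h1 : IsRegular S ((l₁ ++ l₂) ++ [x]) :=
    IsLocalRing.isRegular_of_perm h (perm_append_cons l₁ l₂ x)
  have h2 := (isWeaklyRegular_append_iff S (l₁ ++ l₂) [x]).mp h1.toIsWeaklyRegular
  have h3 : IsSMulRegular (S ⧸ (Ideal.ofList (l₁ ++ l₂) • ⊤ : Submodule S S)) x :=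
    (isWeaklyRegular_singleton_iff _ x).mp h2.2
  refine ⟨(regMod_iff_isSMulRegular _ x).mpr h3, fun y hy hyr => ?_⟩
  have h4 : IsWeaklyRegular S ((l₁ ++ l₂) ++ [y]) := by
    rw [isWeaklyRegular_append_iff]
    exact ⟨h2.1, (isWeaklyRegular_singleton_iff _ y).mpr ((regMod_iff_isSMulRegular _ y).mp hyr)⟩
  have hmem : ∀ r ∈ (l₁ ++ l₂) ++ [y], r ∈ maximalIdeal S := by
    intro r hr
    rcases List.mem_append.mp hr with hr | hr
    · apply mem_maximalIdeal_of_isRegular h
      rcases List.mem_append.mp hr with hr | hr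
      · exact List.mem_append_left _ hr
      · exact List.mem_append_right _ (List.mem_cons_of_mem _ hr)
    · rw [List.mem_singleton] at hr
      rw [hr]; exact hy
  have h5 : IsRegular S ((l₁ ++ l₂) ++ [y]) :=
    IsRegular.of_isWeaklyRegular_of_mem_maximalIdeal S hmem h4
  refine IsLocalRing.isRegular_of_perm h5 ?_
  have : ((l₁ ++ [y]) ++ l₂) = l₁ ++ y :: l₂ := by simp
  rw [this]
  exact (perm_append_cons l₁ l₂ y).symm

theorem core_fin [IsLocalRing S] [IsNoetherianRing S] (N : ℕ) :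
    ∀ (n : ℕ) (X f : Fin n → S) (l₁ : List S), (∀ i, f i ∈ maximalIdeal S) →
      IsRegular S (l₁ ++ List.ofFn X) → SocleLE (Ideal.ofList (l₁ ++ List.ofFn X)) →
      ∃ a : Fin n → ℕ, (∀ i, N ≤ a i) ∧
        IsRegular S (l₁ ++ List.ofFn fun i => f i + X i ^ a i) ∧
        SocleLE (Ideal.ofList (l₁ ++ List.ofFn fun i => f i + X i ^ a i)) := by
  intro n
  induction n with
  | zero =>
    intro X f l₁ _ hreg hsoc
    refine ⟨fun i => i.elim0, fun i => i.elim0, ?_, ?_⟩
    · simpa using hreg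
    · simpa using hsoc
  | succ n ih =>
    intro X f l₁ hf hreg hsoc
    rw [List.ofFn_succ] at hreg hsoc
    obtain ⟨hXr, hrep⟩ := isRegular_replace l₁ _ hreg
    have hXm : X 0 ∈ maximalIdeal S :=
      mem_maximalIdeal_of_isRegular hreg (List.mem_append_right _ List.mem_cons_self)
    obtain ⟨a₀, ha₀, hreg₀⟩ := exists_regMod_add_pow _ hXm hXr (f 0) (N + 1)
    have hhm : f 0 + X 0 ^ a₀ ∈ maximalIdeal S :=
      Ideal.add_mem _ (hf 0) (Ideal.pow_mem_of_mem _ hXm _ (by omega))
    have hreg' := hrep _ hhm hreg₀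
    have hsoc' : SocleLE (Ideal.ofList ((l₁ ++ [f 0 + X 0 ^ a₀]) ++
        List.ofFn fun i : Fin n => X i.succ)) := by
      have e : ((l₁ ++ [f 0 + X 0 ^ a₀]) ++ List.ofFn fun i : Fin n => X i.succ) =
          l₁ ++ (f 0 + X 0 ^ a₀) :: List.ofFn fun i : Fin n => X i.succ := by simp
      rw [e, ofList_append_cons]
      rw [ofList_append_cons] at hsoc
      exact socleLE_exchange _ hXm hXr hreg₀ hsoc
    obtain ⟨a', ha', hreg'', hsoc''⟩ := ih (fun i => X i.succ) (fun i => f i.succ)
      (l₁ ++ [f 0 + X 0 ^ a₀]) (fun i => hf i.succ) hreg' hsoc'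
    refine ⟨Fin.cons a₀ a', ?_, ?_, ?_⟩
    · intro i
      refine Fin.cases ?_ ?_ i
      · simp only [Fin.cons_zero]; omega
      · intro j; simp only [Fin.cons_succ]; exact ha' j
    · rw [List.ofFn_succ]
      simp only [Fin.cons_zero, Fin.cons_succ]
      have e : ((l₁ ++ [f 0 + X 0 ^ a₀]) ++ List.ofFn fun i : Fin n => f i.succ + X i.succ ^ a' i) =
          l₁ ++ (f 0 + X 0 ^ a₀) :: List.ofFn fun i : Fin n => f i.succ + X i.succ ^ a' i := by
        simp
      rw [← e]
      exact hreg''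
    · rw [List.ofFn_succ]
      simp only [Fin.cons_zero, Fin.cons_succ]
      have e : ((l₁ ++ [f 0 + X 0 ^ a₀]) ++ List.ofFn fun i : Fin n => f i.succ + X i.succ ^ a' i) =
          l₁ ++ (f 0 + X 0 ^ a₀) :: List.ofFn fun i : Fin n => f i.succ + X i.succ ^ a' i := by
        simp
      rw [← e]
      exact hsoc''


theorem ofList_ofFn {n : ℕ} (g : Fin n → S) :
    Ideal.ofList (List.ofFn g) = Ideal.span (Set.range g) := by
  unfold Ideal.ofList
  congr 1
  ext r
  simp [List.mem_ofFn]

theorem withBot_enat_cancel {x : WithBot ℕ∞} (n : ℕ) (h : x + (n : WithBot ℕ∞) = (n : WithBot ℕ∞)) :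
    x ≤ 0 := by
  induction x using WithBot.recBotCoe with
  | bot => exact bot_le
  | coe x =>
    have h1 : ((x + (n : ℕ∞) : ℕ∞) : WithBot ℕ∞) = ((n : ℕ∞) : WithBot ℕ∞) := by
      rw [WithBot.coe_add]; exact h
    have h2 : x + (n : ℕ∞) = (n : ℕ∞) := WithBot.coe_injective h1
    have h3 : x = 0 := by
      have h4 : x + (n : ℕ∞) = 0 + (n : ℕ∞) := by rw [h2, zero_add]
      exact (ENat.add_left_injective_of_ne_top (ENat.natCast_ne_top n)) h4
    rw [h3]; rfl

/-- (W3) -/
theorem isArtinianRing_quotient_of_isRegular [IsLocalRing S] [IsNoetherianRing S]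
    (Xs hs : List S) (hX : Ideal.ofList Xs = maximalIdeal S) (hXreg : IsRegular S Xs)
    (hreg : IsRegular S hs) (hlen : hs.length = Xs.length) :
    IsArtinianRing (S ⧸ Ideal.ofList hs) := by
  have h1 := ringKrullDim_add_length_eq_ringKrullDim_of_isRegular Xs hXreg
  have h2 := ringKrullDim_add_length_eq_ringKrullDim_of_isRegular hs hreg
  have h3 : ringKrullDim (S ⧸ Ideal.ofList Xs) = 0 := by
    rw [ringKrullDim_eq_of_ringEquiv (Ideal.quotEquivOfEq hX)]
    exact ringKrullDim_eq_zero_of_field (ResidueField S)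
  rw [h3, zero_add] at h1
  rw [← h1, hlen] at h2
  have h4 : ringKrullDim (S ⧸ Ideal.ofList hs) ≤ 0 := withBot_enat_cancel _ h2
  rw [isArtinianRing_iff_krullDimLE_zero]
  exact Ring.krullDimLE_iff.mpr h4


end Select

/-- **Complete-intersection cover with simple socle.** -/
theorem exists_perturb {S : Type} [CommRing S] [IsLocalRing S] [IsNoetherianRing S] {n : ℕ}
    (X : Fin n → S) (hX : Ideal.span (Set.range X) = maximalIdeal S)
    (hreg : RingTheory.Sequence.IsRegular S (List.ofFn X))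
    (f : Fin n → S) (hf : ∀ i, f i ∈ maximalIdeal S) (N : ℕ) :
    ∃ a : Fin n → ℕ, (∀ i, N ≤ a i) ∧
      IsArtinianRing (S ⧸ Ideal.span (Set.range fun i => f i + X i ^ a i)) ∧
      SocleLE (Ideal.span (Set.range fun i => f i + X i ^ a i)) := by
  have hsoc : SocleLE (Ideal.ofList (([] : List S) ++ List.ofFn X)) := by
    rw [List.nil_append, ofList_ofFn, hX]
    intro u v _ _ hv
    have hvu : IsUnit v := by
      by_contra hnu
      exact hv ((IsLocalRing.mem_maximalIdeal _).mpr hnu)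
    have : Ideal.span {v} = ⊤ := Ideal.span_singleton_eq_top.mpr hvu
    rw [this]
    simp
  obtain ⟨a, ha, hreg', hsoc'⟩ := core_fin N n X f [] hf (by simpa using hreg) hsoc
  rw [List.nil_append] at hreg' hsoc'
  refine ⟨a, ha, ?_, ?_⟩
  · rw [← ofList_ofFn]
    refine isArtinianRing_quotient_of_isRegular (List.ofFn X) _ ?_ hreg hreg' ?_
    · rw [ofList_ofFn, hX]
    · simp
  · rw [← ofList_ofFn]
    exact hsoc'

end Fermat.Agent.S59.NumCrit
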